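import Mathlib
import Fermat.Prelude.Def_FLTPrelim_FreyPackage

set_option autoImplicit false

/-- Wiring lemma for S01: Fermat's Last Theorem follows from
"a counterexample for a prime `p ≥ 5` gives a Frey package" and "there is no Frey package",
using Mathlib's `n = 3`, `n = 4` and the reduction to odd primes. -/
theorem S01_flt_of_frey
    (h2 : ∀ (a b c : ℤ), a ≠ 0 → b ≠ 0 → c ≠ 0 → ∀ (p : ℕ), p.Prime → 5 ≤ p →
      a ^ p + b ^ p = c ^ p → Nonempty FreyPackage)
    (h3 : FreyPackage → False)
    (n : ℕ) (hn : 3 ≤ n) (a b c : ℕ) (ha : 0 < a) (hb : 0 < b) (hc : 0 < c) :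
    a ^ n + b ^ n ≠ c ^ n := by
  have hFLT : FermatLastTheorem := by
    apply FermatLastTheorem.of_odd_primes
    intro p pp hodd
    by_cases h5 : 5 ≤ p
    · rw [fermatLastTheoremFor_iff_int]
      intro a b c ha hb hc H
      exact h3 (h2 a b c ha hb hc p pp h5 H).some
    · have hp2 : p ≠ 2 := by
        rintro rfl
        exact absurd hodd (by decide)
      have hp3 : p = 3 := by
        have h2le := pp.two_le
        have hlt : p < 5 := by omega
        interval_cases p
        · exact absurd rfl hp2
        · rfl
        · exact absurd pp (by decide)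
      subst hp3
      exact fermatLastTheoremThree
  exact hFLT n hn a b c ha.ne' hb.ne' hc.ne'
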